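import Mathlib
import Fermat.Agent.LT.T3.H315.AbelCut

/-!
# Row LT, tower T3, leaf AS.2.3 `SphContC` (registry 1171; helper166) -- OFF-MAIN

`sphContC166 : Fermat.Agent.LT.T3.H315.SphContC`, VERBATIM against
`LT/T3/H315/AbelCut.lean` (origin/helper315@4ea336ee2, sha256 446d055e477cbe77): the spherical
function of parameter `0`, `h ↦ d(h) / sinh d(h)`, is continuous on `GL₂(ℂ)`.

Proof: `sph0 X = (dslope sinh 0 (arcosh (max X 1)))⁻¹` (`sph0_eq166`), the divided difference
`dslope sinh 0` (`= sinh d / d`, value `cosh 0 = 1` at `d = 0`) is continuous and never zero,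
`arcosh` is continuous on `[1, ∞)`, and `chD614` is continuous on `GL₂(ℂ)` (`det ≠ 0`).
-/

set_option autoImplicit false

open Filter Topology

namespace Fermat.Agent.LT.T3.H166

open Fermat.Agent.LT.T3.H315 Fermat.Agent.LT.T3.H614

/-- `dslope sinh 0` is continuous. -/
theorem continuous_dslope_sinh166 : Continuous (dslope Real.sinh 0) := by
  rw [continuous_iff_continuousAt]
  intro d
  by_cases hd : d = 0
  · subst hd
    exact continuousAt_dslope_same.mpr (Real.hasDerivAt_sinh 0).differentiableAt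
  · exact (continuousAt_dslope_of_ne hd).mpr Real.continuous_sinh.continuousAt

theorem dslope_sinh_zero166 : dslope Real.sinh 0 0 = 1 := by
  rw [dslope_same, (Real.hasDerivAt_sinh 0).deriv, Real.cosh_zero]

theorem dslope_sinh_of_ne166 {d : ℝ} (hd : d ≠ 0) : dslope Real.sinh 0 d = Real.sinh d / d := by
  rw [dslope_of_ne _ hd, slope_def_field, Real.sinh_zero, sub_zero, sub_zero]

theorem dslope_sinh_ne_zero166 (d : ℝ) : dslope Real.sinh 0 d ≠ 0 := by
  by_cases hd : d = 0
  · subst hd
    rw [dslope_sinh_zero166]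
    exact one_ne_zero
  · rw [dslope_sinh_of_ne166 hd]
    have hs : Real.sinh d ≠ 0 := fun h => hd (Real.sinh_eq_zero.mp h)
    exact div_ne_zero hs hd

/-- `sph0` through the divided difference of `sinh`. -/
theorem sph0_eq166 (X : ℝ) : sph0 X = (dslope Real.sinh 0 (Real.arcosh (max X 1)))⁻¹ := by
  unfold sph0
  by_cases hX : X ≤ 1
  · rw [if_pos hX, max_eq_right hX, Real.arcosh_zero, dslope_sinh_zero166, inv_one]
  · rw [if_neg hX]
    have hX' : 1 < X := not_le.mp hX
    have hpos : 0 < Real.arcosh X := Real.arcosh_pos hX'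
    rw [max_eq_left hX'.le, dslope_sinh_of_ne166 hpos.ne', Real.sinh_arcosh hX'.le, inv_div]

/-- `sph0` is continuous. -/
theorem continuous_sph0_166 : Continuous sph0 := by
  have h1 : Continuous fun X : ℝ => Real.arcosh (max X 1) :=
    Real.continuousOn_arcosh.comp_continuous (continuous_id.max continuous_const)
      (fun X => le_max_right X 1)
  have h2 : Continuous fun X : ℝ => (dslope Real.sinh 0 (Real.arcosh (max X 1)))⁻¹ :=
    (continuous_dslope_sinh166.comp h1).inv₀ (fun X => dslope_sinh_ne_zero166 _)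
  have e : sph0 = fun X : ℝ => (dslope Real.sinh 0 (Real.arcosh (max X 1)))⁻¹ :=
    funext sph0_eq166
  rw [e]
  exact h2

/-- `chD614` is continuous on `GL₂(ℂ)`. -/
theorem continuous_chD166 :
    Continuous fun h : GL (Fin 2) ℂ => chD614 (h : Matrix (Fin 2) (Fin 2) ℂ) := by
  have hval : Continuous fun h : GL (Fin 2) ℂ => (h : Matrix (Fin 2) (Fin 2) ℂ) :=
    Units.continuous_val
  have hent : ∀ i j : Fin 2,
      Continuous fun h : GL (Fin 2) ℂ => ‖(h : Matrix (Fin 2) (Fin 2) ℂ) i j‖ ^ 2 :=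
    fun i j => ((hval.matrix_elem i j).norm).pow 2
  have hdet : Continuous fun h : GL (Fin 2) ℂ => 2 * ‖(h : Matrix (Fin 2) (Fin 2) ℂ).det‖ :=
    continuous_const.mul hval.matrix_det.norm
  have hne : ∀ h : GL (Fin 2) ℂ, 2 * ‖(h : Matrix (Fin 2) (Fin 2) ℂ).det‖ ≠ 0 := by
    intro h
    have h1 : (h : Matrix (Fin 2) (Fin 2) ℂ).det ≠ 0 :=
      ((Matrix.isUnit_iff_isUnit_det _).mp h.isUnit).ne_zero
    exact mul_ne_zero two_ne_zero (norm_ne_zero_iff.mpr h1)
  unfold chD614 hsq614
  exact ((((hent 0 0).add (hent 0 1)).add (hent 1 0)).add (hent 1 1)).div hdet hne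

/-- **AS.2.3 `SphContC`.** -/
theorem sphContC166 : SphContC :=
  Complex.continuous_ofReal.comp (continuous_sph0_166.comp continuous_chD166)

end Fermat.Agent.LT.T3.H166
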